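/-
PROJECT T (S56), block (a1-II) Base/Pairing, leaf (DG) of helper23 #4324 (2) (typist helper21):
a global cocycle of `Coh/Defs` (level-constant at SOME finite level) which is unramified outside `S`,
with values in a module unramified outside `S`, is level-constant at a level of `levelsS S`:
`mem_Z₁_levelsS`.  The level is `K = {g | g acts trivially on X and x g = 0}`.
-/
import Fermat.Agent.S56.Coh.Defs
import Fermat.Agent.CFT.Bridge.Levels
import Fermat.Agent.CFT.LocalBridge.Conjugacy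

set_option autoImplicit false

namespace Fermat.Agent.S56.Base.Pairing.Dict.Glob

open Fermat.Agent.CFT.LC Fermat.Agent.CFT.Bridge Fermat.Agent.CFT.LocalBridge Fermat.Agent.S56.Coh

open scoped Pointwise

variable {k : Type} [CommRing k]

/-- the kernel subgroup of a cocycle: the elements acting trivially on `X` at which `x` vanishes -/
def kerSub (X : Rep.{0} k GQ) (x : GQ → X) (hx : ∀ g h : GQ, x (g * h) = X.ρ g (x h) + x g) :
    Subgroup GQ where
  carrier := {g | (∀ m : X, X.ρ g m = m) ∧ x g = 0}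
  one_mem' := by
    refine ⟨fun m => by rw [map_one]; rfl, ?_⟩
    have h := hx 1 1
    rw [mul_one, map_one, Module.End.one_apply] at h
    exact left_eq_add.mp h
  mul_mem' := by
    rintro g h ⟨hg, hxg⟩ ⟨hh, hxh⟩
    refine ⟨fun m => by rw [map_mul, Module.End.mul_apply, hh m, hg m], ?_⟩
    rw [hx g h, hxh, hxg, map_zero, add_zero]
  inv_mem' := by
    rintro g ⟨hg, hxg⟩
    have hginv : ∀ m : X, X.ρ g⁻¹ m = m := fun m => by
      have h1 : X.ρ g⁻¹ (X.ρ g m) = m := by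
        rw [← Module.End.mul_apply, ← map_mul, inv_mul_cancel, map_one]
        rfl
      rwa [hg m] at h1
    refine ⟨hginv, ?_⟩
    have h1 : x (1 : GQ) = 0 := by
      have h := hx 1 1
      rw [mul_one, map_one, Module.End.one_apply] at h
      exact left_eq_add.mp h
    have h2 := hx g⁻¹ g
    rw [inv_mul_cancel, h1, hxg, map_zero, zero_add] at h2
    exact h2.symm

theorem mem_kerSub_iff (X : Rep.{0} k GQ) (x : GQ → X)
    (hx : ∀ g h : GQ, x (g * h) = X.ρ g (x h) + x g) (g : GQ) :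
    g ∈ kerSub X x hx ↔ (∀ m : X, X.ρ g m = m) ∧ x g = 0 := Iff.rfl

theorem kerSub_normal (X : Rep.{0} k GQ) (x : GQ → X)
    (hx : ∀ g h : GQ, x (g * h) = X.ρ g (x h) + x g) : (kerSub X x hx).Normal := by
  refine ⟨fun g hg σ => ?_⟩
  obtain ⟨hgm, hxg⟩ := hg
  have h1 : x (1 : GQ) = 0 := (kerSub X x hx).one_mem.2
  refine ⟨fun m => ?_, ?_⟩
  · rw [map_mul, map_mul, Module.End.mul_apply, Module.End.mul_apply, hgm,
      ← Module.End.mul_apply, ← map_mul, mul_inv_cancel, map_one]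
    rfl
  · rw [mul_assoc, hx σ (g * σ⁻¹), hx g σ⁻¹, hxg, add_zero, hgm, ← hx σ σ⁻¹, mul_inv_cancel, h1]

/-- (DG) -/
theorem mem_Z₁_levelsS (S : Finset Nat.Primes) (X : Rep.{0} k GQ)
    (hsm : ∃ U ∈ levelsAll.sets, ∀ s ∈ U, ∀ m : X, X.ρ s m = m)
    (hX : ∀ (q : ℕ) [Fact q.Prime], (⟨q, Fact.out⟩ : Nat.Primes) ∉ S →
      ∀ s ∈ Iq q, ∀ m : X, X.ρ s m = m)
    (x : GQ → X) (hx : x ∈ Z1g X)
    (hxu : ∀ (q : ℕ) [Fact q.Prime], (⟨q, Fact.out⟩ : Nat.Primes) ∉ S → IsUnramAt q x) :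
    x ∈ Z₁ (levelsS S) X := by
  have hx' := (mem_Z1g_iff x).mp hx
  obtain ⟨hcoc, U', hU', hlc, -⟩ := hx'
  obtain ⟨U, hU, hUm⟩ := hsm
  rw [mem_Z₁_iff]
  refine ⟨((mem_Z₁_iff x).mp hx).1, ?_⟩
  obtain ⟨K, hK⟩ : ∃ K : Subgroup GQ, K = kerSub X x hcoc := ⟨_, rfl⟩
  have hKn : K.Normal := hK ▸ kerSub_normal X x hcoc
  have hx1 : x (1 : GQ) = 0 := (kerSub X x hcoc).one_mem.2
  -- `K` contains a finite level
  obtain ⟨W, hW, hWle⟩ := levelsAll.directed U hU U' hU'
  have hWK : W ≤ K := by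
    intro s hs
    rw [hK, mem_kerSub_iff]
    refine ⟨hUm s (hWle hs).1, ?_⟩
    have := hlc 1 s (hWle hs).2
    rwa [one_mul, hx1] at this
  obtain ⟨-, E, hE, hEW⟩ := hW
  have hEK : E.fixingSubgroup ≤ K := hEW ▸ hWK
  -- `K` is closed, hence the fixing subgroup of its fixed field `F`, which is finite
  have hopen : IsOpen (K : Set GQ) :=
    Subgroup.isOpen_mono hEK (IntermediateField.fixingSubgroup_isOpen E)
  have hclosed : IsClosed (K : Set GQ) := Subgroup.isClosed_of_isOpen K hopen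
  have hfix : (IntermediateField.fixedField K).fixingSubgroup = K :=
    InfiniteGalois.fixingSubgroup_fixedField (⟨K, hclosed⟩ : ClosedSubgroup GQ)
  have hFle : IntermediateField.fixedField K ≤ E :=
    (IntermediateField.fixedField_antitone hEK).trans
      (InfiniteGalois.fixedField_fixingSubgroup E).le
  have hfd : FiniteDimensional ℚ (IntermediateField.fixedField K) :=
    Module.Finite.of_injective (IntermediateField.inclusion hFle).toLinearMap
      (IntermediateField.inclusion_injective hFle)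
  -- inertia outside `S` lies in `K`
  have hIK : ∀ (q : ℕ) [Fact q.Prime], (⟨q, Fact.out⟩ : Nat.Primes) ∉ S → Iq q ≤ K := by
    intro q _ hq s hs
    rw [hK, mem_kerSub_iff]
    refine ⟨hX q hq s hs, ?_⟩
    obtain ⟨a, ha⟩ := hxu q hq
    rw [ha s hs, hX q hq s hs a, sub_self]
  have hunr : (IntermediateField.fixedField K).IsUnramifiedOutside S := by
    refine ⟨hfd, fun q hq A hA τ hτ => ?_⟩
    have : Fact (q : ℕ).Prime := ⟨q.2⟩
    rw [hfix]
    obtain ⟨σ, rfl⟩ := exists_smul_padicPlace_eq (q := (q : ℕ)) hA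
    have h1 := Fermat.Agent.CFT.Bridge.Inertia.conj_mem_inertiaSubgroupIn ℚ hτ σ⁻¹
    have e1 : σ⁻¹ • σ • padicPlace (q : ℕ) = padicPlace (q : ℕ) := inv_smul_smul σ _
    rw [e1, inv_inv] at h1
    have h2 : σ⁻¹ * τ * σ ∈ K := hIK (q : ℕ) hq h1
    have h3 := hKn.conj_mem _ h2 σ
    have e : σ * (σ⁻¹ * τ * σ) * σ⁻¹ = τ := by group
    rwa [e] at h3
  refine ⟨K, ⟨hKn, IntermediateField.fixedField K, hunr, hfix⟩, fun g s hs => ?_, fun g s hs => ?_⟩
  · rw [hK, mem_kerSub_iff] at hs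
    rw [hcoc g s, hs.2, map_zero, zero_add]
  · rw [hK, mem_kerSub_iff] at hs
    exact hs.1 (x g)

end Fermat.Agent.S56.Base.Pairing.Dict.Glob
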