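import Mathlib
import Fermat.Agent.S56.Coh.Defs
import Fermat.Agent.CFT.D.CoeffChange
import Fermat.Agent.CFT.D.Reduce
import Fermat.Agent.CFT.LocalBridge.Decomposition
import Fermat.Agent.CFT.LocalBridge.Krasner

/-!
# PROJECT T (S56), block (a1-II) `S56/Base/Pairing`, leaf (DL): the LOCAL cocycle ↔ class dictionary

`r := primeLocalToGlobal (qP q) : primeLocalGaloisGroup (qP q) →* GQ` is injective (Krasner) with
range `Dq q`; so the explicit local cocycles `Z1 (Dq q) X` of `S56/Coh/Defs` (functions on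
`↥(Dq q)`) are the level-constant cocycles of the local Galois group for the family `levelsOf r`,
`Z1 / B1` is `LC.H (levelsOf r) (Rep.res r X) 1`, and after restriction of scalars along
`φ : R →+* k` (`CoeffChange.hEquiv`) this is the group in which the Poitou–Tate layer computes.

* generic part (`Gen`): for an injective `r : G' →* GQ` with range a subgroup `Hs`:
  `toH`, `eH : G' ≃* ↥Hs`, `pullZ : ↥(Z1 Hs X) ≃ₗ[k] ↥(Z₁ (levelsOf r) (Rep.res r X))`,
  `pull_mem_B₁_iff`;
* `qP`, `loc_mem_Dq`, `clsq`, `clsq_surjective`, `clsq_eq_zero_iff`, `clsq_smul`, `exists_rep`,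
  `map_cls_eq` : helper23's literals (#4324 (3)).
-/

set_option autoImplicit false

namespace Fermat.Agent.S56.Base.Pairing.Dict.Loc

open CategoryTheory groupCohomology ExtCitation
open Fermat.Agent.CFT.LC Fermat.Agent.CFT.Bridge Fermat.Agent.CFT.LocalBridge
  Fermat.Agent.CFT.D.CoeffChange Fermat.Agent.CFT.D.Reduce Fermat.Agent.S56.Coh

open scoped Pointwise

/-! ### Generic part: an injective homomorphism onto a subgroup of `GQ` -/

namespace Gen

variable {G' : Type} [Group G'] (r : G' →* GQ) (Hs : Subgroup GQ) (hmem : ∀ g, r g ∈ Hs)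

/-- `r` with values in the subgroup `Hs`. -/
noncomputable def toH : G' →* ↥Hs := r.codRestrict Hs hmem

lemma coe_toH (g : G') : ((toH r Hs hmem g : ↥Hs) : GQ) = r g := rfl

lemma subtype_comp_toH : Hs.subtype.comp (toH r Hs hmem) = r := rfl

variable (hinj : Function.Injective r) (hsurj : ∀ s : ↥Hs, ∃ g, r g = s)

/-- `G' ≃* Hs`. -/
noncomputable def eH : G' ≃* ↥Hs :=
  MulEquiv.ofBijective (toH r Hs hmem)
    ⟨fun _ _ h => hinj (congrArg Subtype.val h),
      fun s => (hsurj s).imp fun _ hg => Subtype.ext hg⟩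

lemma toH_eH_symm (s : ↥Hs) : toH r Hs hmem ((eH r Hs hmem hinj hsurj).symm s) = s :=
  (eH r Hs hmem hinj hsurj).apply_symm_apply s

lemma eH_symm_toH (g : G') : (eH r Hs hmem hinj hsurj).symm (toH r Hs hmem g) = g :=
  (eH r Hs hmem hinj hsurj).symm_apply_apply g

lemma r_eH_symm (s : ↥Hs) : r ((eH r Hs hmem hinj hsurj).symm s) = (s : GQ) := by
  rw [← coe_toH r Hs hmem, toH_eH_symm]

/-! #### The two level families correspond -/

lemma comap_toH_mem {U : Subgroup ↥Hs} (hU : U ∈ (levelsOf Hs.subtype).sets) :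
    U.comap (toH r Hs hmem) ∈ (levelsOf r).sets := by
  obtain ⟨V, hV, rfl⟩ := hU
  refine ⟨V, hV, ?_⟩
  change V.comap r = (V.comap Hs.subtype).comap (toH r Hs hmem)
  rw [Subgroup.comap_comap, subtype_comp_toH]

lemma exists_comap_toH_eq {W : Subgroup G'} (hW : W ∈ (levelsOf r).sets) :
    ∃ U ∈ (levelsOf Hs.subtype).sets, U.comap (toH r Hs hmem) = W := by
  obtain ⟨V, hV, rfl⟩ := hW
  refine ⟨V.comap Hs.subtype, ⟨V, hV, rfl⟩, ?_⟩
  change (V.comap Hs.subtype).comap (toH r Hs hmem) = V.comap r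
  rw [Subgroup.comap_comap, subtype_comp_toH]

/-! #### Pull-back of cocycles -/

variable {k : Type} [CommRing k] (X : Rep.{0} k GQ)

/-- Pull-back of a function on `Hs` to `G'`. -/
noncomputable def pull (c : ↥Hs → resRep Hs X) : G' → Rep.res r X :=
  fun g => c (toH r Hs hmem g)

/-- Push-forward of a function on `G'` to `Hs`. -/
noncomputable def push (z : G' → Rep.res r X) : ↥Hs → resRep Hs X :=
  fun s => z ((eH r Hs hmem hinj hsurj).symm s)

lemma pull_apply (c : ↥Hs → resRep Hs X) (g : G') :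
    pull r Hs hmem X c g = c (toH r Hs hmem g) := rfl

lemma push_apply (z : G' → Rep.res r X) (s : ↥Hs) :
    push r Hs hmem hinj hsurj X z s = z ((eH r Hs hmem hinj hsurj).symm s) := rfl

lemma res_ρ_eH_symm (s : ↥Hs) :
    (Rep.res r X).ρ ((eH r Hs hmem hinj hsurj).symm s) = X.ρ (s : GQ) := by
  change X.ρ (r ((eH r Hs hmem hinj hsurj).symm s)) = _
  rw [r_eH_symm]

lemma pull_push (z : G' → Rep.res r X) :
    pull r Hs hmem X (push r Hs hmem hinj hsurj X z) = z := by
  funext g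
  rw [pull_apply, push_apply, eH_symm_toH]

lemma push_pull (c : ↥Hs → resRep Hs X) :
    push r Hs hmem hinj hsurj X (pull r Hs hmem X c) = c := by
  funext s
  rw [push_apply, pull_apply, toH_eH_symm]

lemma pull_mem_Z₁ {c : ↥Hs → resRep Hs X} (hc : c ∈ Z1 Hs X) :
    pull r Hs hmem X c ∈ Z₁ (levelsOf r) (Rep.res r X) := by
  rw [mem_Z1_iff] at hc
  rw [mem_Z₁_iff, mem_cocycles₁_iff]
  refine ⟨fun g h => ?_, ?_⟩
  · change c (toH r Hs hmem (g * h)) = X.ρ (r g) (c (toH r Hs hmem h)) + c (toH r Hs hmem g)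
    rw [map_mul]
    exact hc.1 _ _
  · obtain ⟨U, hU, h1, h2⟩ := hc.2
    refine ⟨U.comap (toH r Hs hmem), comap_toH_mem r Hs hmem hU, fun g s hs => ?_,
      fun g s hs => ?_⟩
    · change c (toH r Hs hmem (g * s)) = c (toH r Hs hmem g)
      rw [map_mul]
      exact h1 _ _ hs
    · exact h2 _ _ hs

lemma push_mem_Z1 {z : G' → Rep.res r X} (hz : z ∈ Z₁ (levelsOf r) (Rep.res r X)) :
    push r Hs hmem hinj hsurj X z ∈ Z1 Hs X := by
  rw [mem_Z₁_iff, mem_cocycles₁_iff] at hz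
  rw [mem_Z1_iff]
  refine ⟨fun g h => ?_, ?_⟩
  · change z ((eH r Hs hmem hinj hsurj).symm (g * h)) =
      X.ρ (g : GQ) (z ((eH r Hs hmem hinj hsurj).symm h)) + z ((eH r Hs hmem hinj hsurj).symm g)
    rw [map_mul, hz.1, res_ρ_eH_symm]
  · obtain ⟨W, hW, h1, h2⟩ := hz.2
    obtain ⟨U, hU, rfl⟩ := exists_comap_toH_eq r Hs hmem hW
    refine ⟨U, hU, fun g s hs => ?_, fun g s hs => ?_⟩
    · change z ((eH r Hs hmem hinj hsurj).symm (g * s)) = z ((eH r Hs hmem hinj hsurj).symm g)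
      rw [map_mul]
      refine h1 _ _ ?_
      rw [Subgroup.mem_comap, toH_eH_symm]
      exact hs
    · have h3 := h2 ((eH r Hs hmem hinj hsurj).symm g) ((eH r Hs hmem hinj hsurj).symm s)
        (by rw [Subgroup.mem_comap, toH_eH_symm]; exact hs)
      rw [res_ρ_eH_symm] at h3
      exact h3

/-- The explicit cocycles on `Hs` are the level-constant cocycles of `G'`. -/
noncomputable def pullZ : ↥(Z1 Hs X) ≃ₗ[k] ↥(Z₁ (levelsOf r) (Rep.res r X)) where
  toFun c := ⟨pull r Hs hmem X c.1, pull_mem_Z₁ r Hs hmem X c.2⟩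
  invFun z := ⟨push r Hs hmem hinj hsurj X z.1, push_mem_Z1 r Hs hmem hinj hsurj X z.2⟩
  map_add' _ _ := rfl
  map_smul' _ _ := rfl
  left_inv c := Subtype.ext (push_pull r Hs hmem hinj hsurj X c.1)
  right_inv z := Subtype.ext (pull_push r Hs hmem hinj hsurj X z.1)

lemma pullZ_apply (c : ↥(Z1 Hs X)) (g : G') :
    (pullZ r Hs hmem hinj hsurj X c).1 g = c.1 (toH r Hs hmem g) := rfl

include hinj hsurj in
lemma pull_mem_B₁_iff (c : ↥Hs → resRep Hs X) :
    pull r Hs hmem X c ∈ B₁ (levelsOf r) (Rep.res r X) ↔ c ∈ B1 Hs X := by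
  rw [mem_B₁_iff, mem_B₁_iff]
  constructor
  · rintro ⟨a, ⟨W, hW, ha⟩, h⟩
    obtain ⟨U, hU, rfl⟩ := exists_comap_toH_eq r Hs hmem hW
    refine ⟨a, ⟨U, hU, fun s hs => ?_⟩, ?_⟩
    · have h3 := ha ((eH r Hs hmem hinj hsurj).symm s)
        (by rw [Subgroup.mem_comap, toH_eH_symm]; exact hs)
      rw [res_ρ_eH_symm] at h3
      exact h3
    · funext s
      have h3 := congrFun h ((eH r Hs hmem hinj hsurj).symm s)
      rw [pull_apply, toH_eH_symm] at h3
      rw [← h3, d₀₁_hom_apply, d₀₁_hom_apply, res_ρ_eH_symm]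
      rfl
  · rintro ⟨a, ⟨U, hU, ha⟩, rfl⟩
    refine ⟨a, ⟨U.comap (toH r Hs hmem), comap_toH_mem r Hs hmem hU, fun s hs => ha _ hs⟩, ?_⟩
    funext g
    rw [pull_apply, d₀₁_hom_apply, d₀₁_hom_apply]
    rfl

end Gen

/-! ### The local class map at `q` -/

variable {k : Type} [CommRing k] {R : Type} [CommRing R] (φ : R →+* k) (q : ℕ) [Fact q.Prime]
  (X : Rep.{0} k GQ)

/-- `q` as an element of `Nat.Primes`. -/
abbrev qP : Nat.Primes := ⟨q, Fact.out⟩

theorem loc_mem_Dq (g : primeLocalGaloisGroup (qP q)) : primeLocalToGlobal (qP q) g ∈ Dq q :=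
  localGaloisToGlobal_mem_decompositionSubgroup q g

theorem loc_injective : Function.Injective (primeLocalToGlobal (qP q)) :=
  localGaloisToGlobal_injective q

theorem loc_surjective (s : ↥(Dq q)) :
    ∃ g : primeLocalGaloisGroup (qP q), primeLocalToGlobal (qP q) g = s :=
  exists_localGaloisToGlobal_eq q (MulAction.mem_stabilizer_iff.mp s.2)

/-- The pull-back of local cocycles to the local Galois group. -/
noncomputable def T : ↥(Z1 (Dq q) X) ≃ₗ[k]
    ↥(Z₁ (levelsOf (primeLocalToGlobal (qP q))) (Rep.res (primeLocalToGlobal (qP q)) X)) :=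
  Gen.pullZ (primeLocalToGlobal (qP q)) (Dq q) (loc_mem_Dq q) (loc_injective q) (loc_surjective q) X

theorem T_apply (x : ↥(Z1 (Dq q) X)) (g : primeLocalGaloisGroup (qP q)) :
    (T q X x).1 g = x.1 ⟨primeLocalToGlobal (qP q) g, loc_mem_Dq q g⟩ := rfl

/-- **(D2a)** the class of a local cocycle in level-constant cohomology, after restriction of
scalars along `φ`. -/
noncomputable def clsq : ↥(Z1 (Dq q) X) →+
    H (levelsOf (primeLocalToGlobal (qP q)))
      (Rep.res (primeLocalToGlobal (qP q)) (resScalars φ X)) 1 :=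
  ((hEquiv φ (levelsOf (primeLocalToGlobal (qP q)))
      (Rep.res (primeLocalToGlobal (qP q)) X) 1).toAddMonoidHom.comp
    (H1π' (levelsOf (primeLocalToGlobal (qP q)))
      (Rep.res (primeLocalToGlobal (qP q)) X)).toAddMonoidHom).comp
    (T q X).toLinearMap.toAddMonoidHom

theorem clsq_apply (x : ↥(Z1 (Dq q) X)) :
    clsq φ q X x = hEquiv φ (levelsOf (primeLocalToGlobal (qP q)))
      (Rep.res (primeLocalToGlobal (qP q)) X) 1
        (H1π' (levelsOf (primeLocalToGlobal (qP q))) (Rep.res (primeLocalToGlobal (qP q)) X)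
          (T q X x)) := rfl

theorem clsq_surjective : Function.Surjective (clsq φ q X) := by
  intro y
  obtain ⟨y', rfl⟩ := (hEquiv φ (levelsOf (primeLocalToGlobal (qP q)))
    (Rep.res (primeLocalToGlobal (qP q)) X) 1).surjective y
  obtain ⟨f, rfl⟩ := H1π'_surjective _ _ y'
  obtain ⟨x, rfl⟩ := (T q X).surjective f
  exact ⟨x, rfl⟩

theorem clsq_eq_zero_iff (x : ↥(Z1 (Dq q) X)) : clsq φ q X x = 0 ↔ x.1 ∈ B1 (Dq q) X := by
  have h1 : clsq φ q X x = 0 ↔ H1π' (levelsOf (primeLocalToGlobal (qP q)))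
      (Rep.res (primeLocalToGlobal (qP q)) X) (T q X x) = 0 :=
    (hEquiv φ (levelsOf (primeLocalToGlobal (qP q)))
      (Rep.res (primeLocalToGlobal (qP q)) X) 1).map_eq_zero_iff
  rw [h1, H1π'_eq_zero_iff]
  exact Gen.pull_mem_B₁_iff (primeLocalToGlobal (qP q)) (Dq q) (loc_mem_Dq q) (loc_injective q)
    (loc_surjective q) X x.1

/-- The explicit level-constant cocycle representing `clsq x`. -/
noncomputable def repq (x : ↥(Z1 (Dq q) X)) :
    cocyclesLC (levelsOf (primeLocalToGlobal (qP q)))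
      (Rep.res (primeLocalToGlobal (qP q)) (resScalars φ X)) 1 :=
  cocyclesEquiv φ (levelsOf (primeLocalToGlobal (qP q))) (Rep.res (primeLocalToGlobal (qP q)) X) 1
    (toCocyclesLC₁ (levelsOf (primeLocalToGlobal (qP q))) (Rep.res (primeLocalToGlobal (qP q)) X)
      (T q X x))

theorem Hπ_repq (x : ↥(Z1 (Dq q) X)) :
    Hπ (levelsOf (primeLocalToGlobal (qP q)))
      (Rep.res (primeLocalToGlobal (qP q)) (resScalars φ X)) 1 (repq φ q X x) = clsq φ q X x := by
  rw [clsq_apply]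
  exact (hEquiv_Hπ φ (levelsOf (primeLocalToGlobal (qP q)))
    (Rep.res (primeLocalToGlobal (qP q)) X) 1 _).symm

theorem repq_apply (x : ↥(Z1 (Dq q) X)) (g : Fin 1 → primeLocalGaloisGroup (qP q)) :
    (repq φ q X x).1.1 g =
      toRes φ X (x.1 ⟨primeLocalToGlobal (qP q) (g 0), loc_mem_Dq q (g 0)⟩) := rfl

/-- **(D2c)** -/
theorem exists_rep (x : ↥(Z1 (Dq q) X)) :
    ∃ z : cocyclesLC (levelsOf (primeLocalToGlobal (qP q)))
        (Rep.res (primeLocalToGlobal (qP q)) (resScalars φ X)) 1,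
      Hπ _ _ 1 z = clsq φ q X x ∧ ∀ g : primeLocalGaloisGroup (qP q),
        z.1.1 (fun _ => g) =
          toRes φ X (x.1 ⟨primeLocalToGlobal (qP q) g, loc_mem_Dq q g⟩) :=
  ⟨repq φ q X x, Hπ_repq φ q X x, fun _ => rfl⟩

/-- **(D2b)** for scalars: `clsq` is `k`-linear, the scalar `c` acting on the target through
functoriality in the coefficients. -/
theorem clsq_smul (c : k) (x : ↥(Z1 (Dq q) X)) :
    clsq φ q X (c • x) = mapId (𝒰 := levelsOf (primeLocalToGlobal (qP q)))
      ((Rep.resFunctor (primeLocalToGlobal (qP q))).map (resScalarsMap φ (c • 𝟙 X))) 1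
        (clsq φ q X x) := by
  rw [← Hπ_repq, ← Hπ_repq, map_Hπ]
  congr 1

/-- **(D1, compatibility)** localisation of a global class is the class of the restricted
cocycle. -/
theorem map_cls_eq (S : Finset Nat.Primes) (q : ↥S) (x : ↥(Z1g X))
    (hx : x.1 ∈ Z₁ (levelsS S) X) :
    haveI : Fact ((q.1 : ℕ)).Prime := ⟨q.1.2⟩
    map (A := resScalars φ X) (B := Rep.res (rv S q) (resScalars φ X)) (hrv S q) (𝟙 _) 1
        (hEquiv φ (levelsS S) X 1 (H1π' (levelsS S) X ⟨x.1, hx⟩)) =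
      clsq φ (q.1 : ℕ) X (resZ (Dq (q.1 : ℕ)) X x) := by
  change map (A := resScalars φ X) (B := Rep.res (rv S q) (resScalars φ X)) (hrv S q) (𝟙 _) 1
      (hEquiv φ (levelsS S) X 1 (Hπ (levelsS S) X 1 (toCocyclesLC₁ (levelsS S) X ⟨x.1, hx⟩))) = _
  rw [hEquiv_Hπ, map_Hπ, ← Hπ_repq]
  congr 1

end Fermat.Agent.S56.Base.Pairing.Dict.Loc
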