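/-
PROJECT T (S56), block Base (helper21), requested by the chief (#4406 (3)): the level step of
`Dict/Glob.mem_Z₁_levelsS` as its own theorem.  A normal open subgroup of `G_ℚ` containing the
inertia groups `Iq q` of the fixed places for all `q ∉ S` is a level of `levelsS S`.
-/
import Fermat.Agent.S56.Coh.Defs
import Fermat.Agent.CFT.Bridge.Levels
import Fermat.Agent.CFT.LocalBridge.Conjugacy

set_option autoImplicit false

namespace Fermat.Agent.S56.Base.Pairing.Dict.Level

open Fermat.Agent.CFT.LC Fermat.Agent.CFT.Bridge Fermat.Agent.CFT.LocalBridge Fermat.Agent.S56.Coh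

open scoped Pointwise

/-- a subgroup containing a finite level is the fixing subgroup of its fixed field, which is finite -/
theorem fixingSubgroup_fixedField_of_level_le (K : Subgroup GQ)
    (hopen : ∃ U ∈ levelsAll.sets, U ≤ K) :
    (IntermediateField.fixedField K).fixingSubgroup = K ∧
      FiniteDimensional ℚ (IntermediateField.fixedField K) := by
  obtain ⟨W, ⟨-, E, hE, hEW⟩, hWK⟩ := hopen
  have hEK : E.fixingSubgroup ≤ K := hEW ▸ hWK
  have hop : IsOpen (K : Set GQ) :=
    Subgroup.isOpen_mono hEK (IntermediateField.fixingSubgroup_isOpen E)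
  have hclosed : IsClosed (K : Set GQ) := Subgroup.isClosed_of_isOpen K hop
  have hfix : (IntermediateField.fixedField K).fixingSubgroup = K :=
    InfiniteGalois.fixingSubgroup_fixedField (⟨K, hclosed⟩ : ClosedSubgroup GQ)
  have hFle : IntermediateField.fixedField K ≤ E :=
    (IntermediateField.fixedField_antitone hEK).trans
      (InfiniteGalois.fixedField_fixingSubgroup E).le
  exact ⟨hfix, Module.Finite.of_injective (IntermediateField.inclusion hFle).toLinearMap
    (IntermediateField.inclusion_injective hFle)⟩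

/-- the fixed field of a normal open subgroup containing the inertia groups outside `S` is
unramified outside `S` -/
theorem isUnramifiedOutside_fixedField (S : Finset Nat.Primes) (K : Subgroup GQ) [hK : K.Normal]
    (hopen : ∃ U ∈ levelsAll.sets, U ≤ K)
    (hunr : ∀ (q : ℕ) [Fact q.Prime], (⟨q, Fact.out⟩ : Nat.Primes) ∉ S → Iq q ≤ K) :
    (IntermediateField.fixedField K).IsUnramifiedOutside S := by
  obtain ⟨hfix, hfd⟩ := fixingSubgroup_fixedField_of_level_le K hopen
  refine ⟨hfd, fun q hq A hA τ hτ => ?_⟩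
  have : Fact (q : ℕ).Prime := ⟨q.2⟩
  rw [hfix]
  obtain ⟨σ, rfl⟩ := exists_smul_padicPlace_eq (q := (q : ℕ)) hA
  have h1 := Fermat.Agent.CFT.Bridge.Inertia.conj_mem_inertiaSubgroupIn ℚ hτ σ⁻¹
  have e1 : σ⁻¹ • σ • padicPlace (q : ℕ) = padicPlace (q : ℕ) := inv_smul_smul σ _
  rw [e1, inv_inv] at h1
  have h2 : σ⁻¹ * τ * σ ∈ K := hunr (q : ℕ) hq h1
  have h3 := hK.conj_mem _ h2 σ
  have e : σ * (σ⁻¹ * τ * σ) * σ⁻¹ = τ := by group
  rwa [e] at h3

/-- **the level step** (chief #4406 (3)) -/
theorem mem_levelsS_of_inertia_le (S : Finset Nat.Primes) (K : Subgroup GQ) [K.Normal]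
    (hopen : ∃ U ∈ levelsAll.sets, U ≤ K)
    (hunr : ∀ (q : ℕ) [Fact q.Prime], (⟨q, Fact.out⟩ : Nat.Primes) ∉ S → Iq q ≤ K) :
    K ∈ (levelsS S).sets :=
  ⟨inferInstance, IntermediateField.fixedField K, isUnramifiedOutside_fixedField S K hopen hunr,
    (fixingSubgroup_fixedField_of_level_le K hopen).1⟩

end Fermat.Agent.S56.Base.Pairing.Dict.Level
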